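/-
Row 37 (S43), block E0, model API for (O) (helper21).  ABSTRACT POINT LEMMAS on a regular nodal model
(`S44.Depth.NodalModel` with `e = 1`), for ANY exponent `n ≠ 0`:

* `local_root`      : `u` with `n ∣ div_hor u`, unit at both vertical valuations ⟹ `u = g ^ n · (unit of R)`;
* `local_root_of_dvd` : the same up to a constant when only `n ∣ v_0(u) - v_∞(u)`;
* `one_add_rad`     : `w ≡ 1` at both vertical valuations and unit at the horizontal valuations through `R`
                      ⟹ `w ∈ Rˣ` and `w - 1 ∈ rad R`;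
* `exists_root_residue` : the residue of a unit of `R` has an `n`-th root (`k` algebraically closed).
-/
import Fermat.Agent.S44.Depth.Abs.Slope

set_option autoImplicit false

noncomputable section

namespace Fermat.Agent.S43.E0.Model

open Fermat.Agent.S18 Fermat.Agent.S36.BP Fermat.Agent.S44.Depth

variable {K F : Type*} [Field K] [Field F] [Algebra K F]
variable {A : ValuationSubring K} {ϖ : K} {Vi V0 : ValuationSubring F} {x y : F}
  {Smi Sm0 Nd : Set (Subring F)} {R : Subring F}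

/-- a constant which is a unit of a vertical valuation ring is a unit of `A`. -/
theorem val_const_eq_one {V : ValuationSubring F} (hA : IsUnif A ϖ)
    (hV : IsUnif V (algebraMap K F ϖ)) (hc : ∀ a ∈ A, algebraMap K F a ∈ V) {κ : K}
    (h : V.valuation (algebraMap K F κ) = 1) : A.valuation κ = 1 := by
  have hκ : κ ≠ 0 := by
    rintro rfl
    rw [map_zero, map_zero] at h
    exact zero_ne_one h
  rcases lt_trichotomy (A.valuation κ) 1 with h1 | h1 | h1
  · exact absurd h (NodalModel.val_const_lt_one_of hA hV hc h1).ne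
  · exact h1
  · have h2 : A.valuation κ⁻¹ < 1 := by
      rw [map_inv₀]
      exact inv_lt_one_of_one_lt₀ h1
    have h3 := NodalModel.val_const_lt_one_of hA hV hc h2
    rw [map_inv₀, map_inv₀, h, inv_one] at h3
    exact absurd h3 (lt_irrefl _)

/-- smooth points. -/
theorem local_root_sm {V : ValuationSubring F} (hA : IsUnif A ϖ) (hV : IsUnif V (algebraMap K F ϖ))
    (hc : ∀ a ∈ A, algebraMap K F a ∈ V) (hS : IsSm A ϖ V R) {n : ℕ} (hn : n ≠ 0) {u : F}
    (hd : HorDiv K n u) (hu : V.valuation u = 1) : ∃ g : F, g ≠ 0 ∧ RUnit R (u / g ^ n) := by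
  have hu0 : u ≠ 0 := ne_zero_of_valuation_eq_one hu
  obtain ⟨κ, G, hκ, hG, hr⟩ := lf_sm hA hV hS hn hu0 hd
  have hG0 : G ≠ 0 := ne_zero_of_valuation_eq_one hG
  have h1 := DatumAux.valuation_eq_one_of_rUnit hS.thr.le hr
  rw [map_div₀, map_mul, map_pow, hG, one_pow, mul_one, hu, one_div, inv_eq_one] at h1
  have h2 := DatumAux.rUnit_const hS.isPt (val_const_eq_one hA hV hc h1)
  refine ⟨G, hG0, ?_⟩
  have h3 := DatumAux.rUnit_mul hr h2
  have hκF : algebraMap K F κ ≠ 0 := by simpa using hκ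
  have e : u / (algebraMap K F κ * G ^ n) * algebraMap K F κ = u / G ^ n := by
    field_simp
  rwa [e] at h3

/-- **Local roots up to a constant**: `n ∣ v_0(u) - v_∞(u)`. -/
theorem local_root_of_dvd (M : NodalModel A ϖ 1 Vi V0 x y Smi Sm0 Nd) (hR : R ∈ Smi ∪ Sm0 ∪ Nd)
    {n : ℕ} (hn : n ≠ 0) {u : F} (hu : u ≠ 0) (hd : HorDiv K n u) {ai a0 : ℤ}
    (hai : Vi.valuation u = Vi.valuation (algebraMap K F ϖ) ^ ai)
    (ha0 : V0.valuation u = V0.valuation (algebraMap K F ϖ) ^ a0) (hdvd : (n : ℤ) ∣ a0 - ai) :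
    ∃ (κ : K) (g : F), κ ≠ 0 ∧ g ≠ 0 ∧ RUnit R (u / (algebraMap K F κ * g ^ n)) := by
  rcases hR with (hR | hR) | hR
  · obtain ⟨κ, G, hκ, hG, hr⟩ := lf_sm M.unifA M.unifi (M.smi R hR) hn hu hd
    exact ⟨κ, G, hκ, ne_zero_of_valuation_eq_one hG, hr⟩
  · obtain ⟨κ, G, hκ, hG, hr⟩ := lf_sm M.unifA M.unif0 (M.sm0 R hR) hn hu hd
    exact ⟨κ, G, hκ, ne_zero_of_valuation_eq_one hG, hr⟩
  · obtain ⟨b, ν, κ, G, hκ, hG, hr, -, hrel⟩ := slope_exists_node M hn hu hd hai ha0 hR
    have hG0 : G ≠ 0 := ne_zero_of_valuation_eq_one hG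
    have hx0 := slope_x_ne_zero M
    obtain ⟨t, ht⟩ := hdvd
    have hb : b = n * (t - ν) := by
      have : a0 - ai = b + n * ν := by rw [hrel]; push_cast; ring
      linear_combination ht - this
    refine ⟨κ, x ^ (t - ν) * G, hκ, mul_ne_zero (zpow_ne_zero _ hx0) hG0, ?_⟩
    have e : algebraMap K F κ * (x ^ (t - ν) * G) ^ n = algebraMap K F κ * x ^ b * G ^ n := by
      rw [mul_pow, hb, mul_comm (n : ℤ), zpow_mul, zpow_natCast, mul_assoc]
    rwa [e]

/-- **Local roots**: `u` a unit at both vertical valuations. -/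
theorem local_root (M : NodalModel A ϖ 1 Vi V0 x y Smi Sm0 Nd) (hR : R ∈ Smi ∪ Sm0 ∪ Nd)
    {n : ℕ} (hn : n ≠ 0) {u : F} (hd : HorDiv K n u) (hi : Vi.valuation u = 1)
    (h0 : V0.valuation u = 1) : ∃ g : F, g ≠ 0 ∧ RUnit R (u / g ^ n) := by
  rcases hR with (hR | hR) | hR
  · exact local_root_sm M.unifA M.unifi M.consti (M.smi R hR) hn hd hi
  · exact local_root_sm M.unifA M.unif0 M.const0 (M.sm0 R hR) hn hd h0
  · have hu : u ≠ 0 := ne_zero_of_valuation_eq_one hi
    obtain ⟨b, ν, κ, G, hκ, hG, hr, -, hrel⟩ := slope_exists_node M hn hu hd (ai := 0) (a0 := 0)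
      (by rw [zpow_zero, hi]) (by rw [zpow_zero, h0]) hR
    have hN := M.nd R hR
    have hG0 : G ≠ 0 := ne_zero_of_valuation_eq_one hG
    have hx0 := slope_x_ne_zero M
    have hb : b = n * (-ν) := by
      have : (0 : ℤ) - 0 = b + n * ν := by rw [hrel]; push_cast; ring
      linear_combination -this
    have h1 := DatumAux.valuation_eq_one_of_rUnit hN.thri.le hr
    rw [map_div₀, map_mul, map_mul, map_pow, hG, one_pow, mul_one, map_zpow₀, M.x_i, one_zpow,
      mul_one, hi, one_div, inv_eq_one] at h1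
    have h2 := DatumAux.rUnit_const hN.isPt (val_const_eq_one M.unifA M.unifi M.consti h1)
    refine ⟨x ^ (-ν) * G, mul_ne_zero (zpow_ne_zero _ hx0) hG0, ?_⟩
    have h3 := DatumAux.rUnit_mul hr h2
    have hκF : algebraMap K F κ ≠ 0 := by simpa using hκ
    have e1 : (x ^ (-ν) * G) ^ n = x ^ b * G ^ n := by
      rw [mul_pow, hb, mul_comm (n : ℤ), zpow_mul, zpow_natCast]
    have hxb : x ^ b ≠ 0 := zpow_ne_zero _ hx0
    have e : u / (algebraMap K F κ * x ^ b * G ^ n) * algebraMap K F κ = u / (x ^ (-ν) * G) ^ n := by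
      rw [e1]
      field_simp
    rwa [e] at h3

/-- `w ≡ 1` on the components through `R`, unit on the horizontal valuations through `R`. -/
theorem one_add_rad_sm {V : ValuationSubring F} (hA : IsUnif A ϖ)
    (hS : IsSm A ϖ V R) {w : F} (h1 : V.valuation (w - 1) < 1)
    (hW : ∀ W : ValuationSubring F, Hor K R W → W.valuation w = 1) :
    RUnit R w ∧ w - 1 ∈ rad R := by
  have hv : V.valuation w = 1 := by
    have := Valuation.map_one_add_of_lt (v := V.valuation) h1
    rwa [add_sub_cancel] at this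
  have hw0 : w ≠ 0 := ne_zero_of_valuation_eq_one hv
  have hw : w ∈ R := krull_sm hA hS (DatumAux.mem_of_valuation_eq_one hv)
    fun W h => DatumAux.mem_of_valuation_eq_one (hW W h)
  have hw' : w⁻¹ ∈ R := krull_sm hA hS (DatumAux.inv_mem_of_valuation_eq_one hv)
    fun W h => DatumAux.inv_mem_of_valuation_eq_one (hW W h)
  exact ⟨⟨hw0, hw, hw'⟩, DatumAux.mem_rad_of_valuation_lt_one hS.thr.le
    (R.sub_mem hw R.one_mem) h1⟩

theorem one_add_rad (M : NodalModel A ϖ 1 Vi V0 x y Smi Sm0 Nd) (hR : R ∈ Smi ∪ Sm0 ∪ Nd) {w : F}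
    (hi : Vi.valuation (w - 1) < 1) (h0 : V0.valuation (w - 1) < 1)
    (hW : ∀ W : ValuationSubring F, Hor K R W → W.valuation w = 1) :
    RUnit R w ∧ w - 1 ∈ rad R := by
  rcases hR with (hR | hR) | hR
  · exact one_add_rad_sm M.unifA (M.smi R hR) hi hW
  · exact one_add_rad_sm M.unifA (M.sm0 R hR) h0 hW
  · have hN := M.nd R hR
    have hvi : Vi.valuation w = 1 := by
      have := Valuation.map_one_add_of_lt (v := Vi.valuation) hi
      rwa [add_sub_cancel] at this
    have hv0 : V0.valuation w = 1 := by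
      have := Valuation.map_one_add_of_lt (v := V0.valuation) h0
      rwa [add_sub_cancel] at this
    have hw0 : w ≠ 0 := ne_zero_of_valuation_eq_one hvi
    have hw : w ∈ R := krull_node M.unifA hN (DatumAux.mem_of_valuation_eq_one hvi)
      (DatumAux.mem_of_valuation_eq_one hv0) fun W h => DatumAux.mem_of_valuation_eq_one (hW W h)
    have hw' : w⁻¹ ∈ R := krull_node M.unifA hN (DatumAux.inv_mem_of_valuation_eq_one hvi)
      (DatumAux.inv_mem_of_valuation_eq_one hv0)
      fun W h => DatumAux.inv_mem_of_valuation_eq_one (hW W h)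
    exact ⟨⟨hw0, hw, hw'⟩, DatumAux.mem_rad_of_valuation_lt_one hN.thri.le
      (R.sub_mem hw R.one_mem) hi⟩

/-- every point of the model is an `IsPt`. -/
theorem isPt_of_mem (M : NodalModel A ϖ 1 Vi V0 x y Smi Sm0 Nd) (hR : R ∈ Smi ∪ Sm0 ∪ Nd) :
    IsPt A R := by
  rcases hR with (hR | hR) | hR
  · exact (M.smi R hR).isPt
  · exact (M.sm0 R hR).isPt
  · exact (M.nd R hR).isPt

/-- the residue of a unit of `R` has an `n`-th root. -/
theorem exists_root_residue (hP : IsPt A R) [IsAlgClosed (IsLocalRing.ResidueField A)] {n : ℕ}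
    (hn : n ≠ 0) {r : F} (hr : RUnit R r) :
    ∃ c : K, A.valuation c = 1 ∧ algebraMap K F c ^ n * r - 1 ∈ rad R := by
  obtain ⟨a, ha, har⟩ := hP.res r⁻¹ hr.2.2
  -- `a` is a unit
  have ha1 : A.valuation a = 1 := by
    rcases ((A.valuation_le_one_iff a).2 ha).lt_or_eq with h | h
    · exfalso
      have h1 := hP.add_rad _ har _ (hP.const_rad a h)
      rw [sub_add_cancel] at h1
      exact h1.2 (DatumAux.rUnit_inv hr)
    · exact h
  obtain ⟨cbar, hcbar⟩ := IsAlgClosed.exists_pow_nat_eq (IsLocalRing.residue A ⟨a, ha⟩)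
    (Nat.pos_of_ne_zero hn)
  obtain ⟨c, rfl⟩ := IsLocalRing.residue_surjective cbar
  have hsub : A.valuation ((c : K) ^ n - a) < 1 := by
    have h1 : IsLocalRing.residue A (c ^ n - ⟨a, ha⟩) = 0 := by
      rw [map_sub, map_pow, hcbar, sub_self]
    rw [IsLocalRing.residue_eq_zero_iff] at h1
    exact (ValuationSubring.valuation_lt_one_iff A _).1 h1
  have hc1 : A.valuation (c : K) = 1 := by
    rcases ((A.valuation_le_one_iff (c : K)).2 c.2).lt_or_eq with h | h
    · exfalso
      have h2 : A.valuation ((c : K) ^ n) < 1 := by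
        rw [map_pow]
        exact pow_lt_one₀ zero_le h hn
      have h3 : A.valuation a < 1 := by
        have : a = (c : K) ^ n - ((c : K) ^ n - a) := by ring
        rw [this]
        exact lt_of_le_of_lt (A.valuation.map_sub _ _) (max_lt h2 hsub)
      exact absurd ha1 h3.ne
    · exact h
  refine ⟨c, hc1, ?_⟩
  have e : algebraMap K F (c : K) ^ n * r - 1 =
      r * (algebraMap K F ((c : K) ^ n - a) - (r⁻¹ - algebraMap K F a)) := by
    rw [map_sub, map_pow]
    have := hr.1
    field_simp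
    ring
  rw [e]
  exact DatumAux.mul_mem_rad hr.2.1 (DatumAux.sub_mem_rad hP (hP.const_rad _ hsub) har)

end Fermat.Agent.S43.E0.Model

end
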