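/-
Row 37 (S43), block E0, model API for (O) (helper21).  **THE MODEL PACKAGE `ModelO`**, for EVERY odd prime `q`
(`q ≥ 5`: hub with the coordinate `j`; `q = 3`: helper103's hub with the coordinate `h₂`), at level `M' * 4 * q` over the
inertia field `K0 A`:

* a coordinate `z` with `MChart (A0 A) q (VV (A0 A) hc) z` (charts `chart (A0 A) z`, `chart (A0 A) z⁻¹`, closed points
  `IsModelPt (A0 A) q z R`);
* the regular nodal model `x₀ y₀ = q` with the tautological sets of points;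
* every closed point of the model is a node or a smooth point.

Consequences for a closed point `R` (any exponent `n ≠ 0`): `ModelO.local_root`, `ModelO.one_add_rad`,
`ModelO.isPt`, `ModelO.exists_root_residue`.
-/
import Fermat.Agent.S43.E0.Model.Point
import Fermat.Agent.S43.E0.Three.Inst

set_option autoImplicit false
set_option linter.unusedSectionVars false

noncomputable section

namespace Fermat.Agent.S43.E0.Model

open ModularCurve AlgebraicCurve Fermat.Agent.S24 Fermat.Agent.S18 Fermat.Agent.S36.Mod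
  Fermat.Agent.BAD.LevelQ Fermat.Agent.BAD.LevelQ.Mod Fermat.Agent.Lib.EtaUnit
  Fermat.Agent.Lib.InertiaField Fermat.Agent.S36.BP Fermat.Agent.S44.X Fermat.Agent.S44.X.Model
  Fermat.Agent.S28.Export Fermat.Agent.Lib.Hauptmodul Fermat.Agent.S44.Depth.Inst Fermat.Agent.S44
  Fermat.Agent.S44.Depth

variable {A : ValuationSubring S44.Qb} {q : ℕ} [NeZero q] {M' : ℕ} [NeZero M']

/-- The data of the model with coordinate `z` and eta units `x₀ y₀ = q`. -/
structure IsModelO (q M' : ℕ) [NeZero q] [NeZero M'] (hc : (M' * 4).Coprime q)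
    (A : ValuationSubring S44.Qb) [IsDiscreteValuationRing (A0 A)]
    (z x₀ y₀ : FK (K0 A) (M' * 4 * q)) : Prop where
  mChart : MChart (A0 A) (q : K0 A) (VV (A0 A) hc) z
  nodal : NodalModel (A0 A) (q : K0 A) 1 (VV (A0 A) hc 0) (VV (A0 A) hc 1) x₀ y₀
    {R | IsSm (A0 A) (q : K0 A) (VV (A0 A) hc 0) R} {R | IsSm (A0 A) (q : K0 A) (VV (A0 A) hc 1) R}
    {R | IsNode (A0 A) (q : K0 A) (VV (A0 A) hc 0) (VV (A0 A) hc 1) x₀ y₀ R}
  classify : ∀ R, IsModelPt (A0 A) (q : K0 A) z R →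
    R ∈ {R | IsSm (A0 A) (q : K0 A) (VV (A0 A) hc 0) R} ∪
      {R | IsSm (A0 A) (q : K0 A) (VV (A0 A) hc 1) R} ∪
      {R | IsNode (A0 A) (q : K0 A) (VV (A0 A) hc 0) (VV (A0 A) hc 1) x₀ y₀ R}

/-- **The model package.** -/
def ModelO (q M' : ℕ) [NeZero q] [NeZero M'] (hc : (M' * 4).Coprime q)
    (A : ValuationSubring S44.Qb) [IsDiscreteValuationRing (A0 A)] : Prop :=
  ∃ z x₀ y₀ : FK (K0 A) (M' * 4 * q), IsModelO q M' hc A z x₀ y₀

theorem modelO_five [IsDiscreteValuationRing (A0 A)] (hq : q.Prime) (h5 : 5 ≤ q) (hqM' : ¬ q ∣ M')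
    (hc4 : Nat.Coprime q 4) (hc : (M' * 4).Coprime q) (hA : A.LiesOverPrime q) :
    ModelO q M' hc A := by
  have hN : 4 * q ∣ M' * 4 * q := ⟨M', by ring⟩
  have h4 : 4 ∣ M' * 4 := Dvd.intro_left M' rfl
  obtain ⟨D, -, hDbar⟩ := S34.Nodal.Inst.Base.exists_baseData_j (M' * 4) q hq h5
  obtain ⟨γ₀, -, H⟩ := lq_inertia A hq hA hc D (beInt_j D hDbar)
  rw [xK_eq_jK (K0 A) hDbar] at H
  obtain ⟨c, C⟩ := exists_cuspQ H
  have E := etaW1 isW1_G4 hc4 h4 hc hN (A₀ := A0 A) (K := K0 A)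
  have hx := x_mem_ch₁ isW1_G4 hc4 h4 hc hN H
  have hy := y_mem_ch₁ isW1_G4 hc4 h4 hc hN H
  have hac := isAlgClosed_residueField_A0 A q hq hA
  have hfin := nodeFinD q A hq hA (M' * 4 * q) _ _ H.mChart
  have E' : Eta (algebraMap (K0 A) (FK (K0 A) (M' * 4 * q)) (q : K0 A)) (VV (A0 A) hc)
      (unitK isW1_G4 q (M' * 4 * q) hc4 hN (K0 A)) (yK isW1_G4 hc4 hN (K0 A)) := by
    rw [map_natCast]
    exact E
  refine ⟨_, unitK isW1_G4 q (M' * 4 * q) hc4 hN (K0 A), yK isW1_G4 hc4 hN (K0 A), H.mChart,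
    H.nodalModel hac E' hx hy C hfin, fun R hR => ?_⟩
  rcases H.classify hac E' hx hy C hfin hR with h | ⟨h, -⟩ | ⟨h, -⟩
  · exact Or.inr h
  · exact Or.inl (Or.inl h)
  · exact Or.inl (Or.inr h)

theorem modelO_three [NeZero 3] [IsDiscreteValuationRing (A0 A)] (hqM' : ¬ 3 ∣ M')
    (hc : (M' * 4).Coprime 3) (hA : A.LiesOverPrime 3) : ModelO 3 M' hc A := by
  have hp : Nat.Prime 3 := by norm_num
  have hp4 : Nat.Coprime 3 4 := by norm_num
  have hN : 4 * 3 ∣ M' * 4 * 3 := ⟨M', by ring⟩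
  have h4 : 4 ∣ M' * 4 := Dvd.intro_left M' rfl
  have h2 : 2 ∣ M' * 4 := Dvd.dvd.mul_left (by norm_num) M'
  obtain ⟨D, hX, hDbar⟩ := S34.Nodal.Inst.Base.exists_baseData_h2 (M' * 4) h2
  have hB : S34.Nodal.Inst.BaseOK (M' * 4) 3 (D.xK Kbar) := by
    rw [hDbar]
    exact S34.Nodal.Inst.Ord.baseOK_h2 hp h2 (by norm_num)
  obtain ⟨γ₀, -, H⟩ := lq_inertia A hp hA hc D (beInt_of_baseOK D hB)
  have hj := Three.jK_mul_xK (K0 A) hX
  have h256 : (A0 A).valuation (256 : K0 A) = 1 := Three.val_256 (by simpa using H.char)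
  obtain ⟨c', h0, hrel⟩ := exists_rel_j (K := K0 A) (M := M' * 4) hp
  have C := Three.cuspQ_j H (a := 256) ((ValuationSubring.valuation_le_one_iff _ _).1 h256.le)
    (by rw [map_ofNat, map_ofNat]) hj (fun a b => intCast_mem (A0 A) _)
    (by rw [h0]; simp) hrel
  have E := etaW1 isW1_G4 hp4 h4 hc hN (A₀ := A0 A) (K := K0 A)
  have hac := isAlgClosed_residueField_A0 A 3 hp hA
  have hfin := nodeFinD 3 A hp hA (M' * 4 * 3) _ _ H.mChart
  have E' : Eta (algebraMap (K0 A) (FK (K0 A) (M' * 4 * 3)) ((3 : ℕ) : K0 A)) (VV (A0 A) hc)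
      (unitK isW1_G4 3 (M' * 4 * 3) hp4 hN (K0 A)) (yK isW1_G4 hp4 hN (K0 A)) := by
    rw [map_natCast]
    exact E
  have CD := Three.cuspDich hac H h256 hj C (Three.x_mem_VV isW1_G4 hp4 h4 hc hN)
    (Three.y_mem_VV isW1_G4 hp4 h4 hc hN) (Three.x_mem_top isW1_G4 hp4 hN)
    (Three.y_mem_top isW1_G4 hp4 hN)
  refine ⟨_, unitK isW1_G4 3 (M' * 4 * 3) hp4 hN (K0 A), yK isW1_G4 hp4 hN (K0 A), H.mChart,
    Three.nodalModel hac H E' CD hfin, fun R hR => ?_⟩
  rcases Three.classify hac H E' CD hfin hR with h | ⟨h, -⟩ | ⟨h, -⟩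
  · exact Or.inr h
  · exact Or.inl (Or.inl h)
  · exact Or.inl (Or.inr h)

/-- **The model package exists for every odd prime `q ∤ M'`.** -/
theorem modelO [IsDiscreteValuationRing (A0 A)] (hq : q.Prime) (hq2 : q ≠ 2) (hqM' : ¬ q ∣ M')
    (hc : (M' * 4).Coprime q) (hA : A.LiesOverPrime q) : ModelO q M' hc A := by
  by_cases h3 : q = 3
  · subst h3
    exact modelO_three hqM' hc hA
  · have h5 : 5 ≤ q := by
      have h2 := hq.two_le
      by_contra hlt
      have : q = 4 := by omega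
      subst this
      exact absurd hq (by norm_num)
    have hc4 : Nat.Coprime q 4 := by
      have : Nat.Coprime q 2 := (Nat.coprime_primes hq Nat.prime_two).2 hq2
      exact Nat.Coprime.pow_right 2 this
    exact modelO_five hq h5 hqM' hc4 hc hA

namespace IsModelO

variable [IsDiscreteValuationRing (A0 A)] {hc : (M' * 4).Coprime q}
  {z x₀ y₀ : FK (K0 A) (M' * 4 * q)} {R : Subring (FK (K0 A) (M' * 4 * q))}

theorem isPt (H : IsModelO q M' hc A z x₀ y₀) (hR : IsModelPt (A0 A) (q : K0 A) z R) :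
    IsPt (A0 A) R := isPt_of_mem H.nodal (H.classify R hR)

/-- `u = g ^ n · (unit of R)`. -/
theorem local_root (H : IsModelO q M' hc A z x₀ y₀) (hR : IsModelPt (A0 A) (q : K0 A) z R) {n : ℕ}
    (hn : n ≠ 0) {u : FK (K0 A) (M' * 4 * q)} (hd : HorDiv (K0 A) n u)
    (hi : (VV (A0 A) hc 0).valuation u = 1) (h0 : (VV (A0 A) hc 1).valuation u = 1) :
    ∃ g : FK (K0 A) (M' * 4 * q), g ≠ 0 ∧ RUnit R (u / g ^ n) :=
  Model.local_root H.nodal (H.classify R hR) hn hd hi h0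

/-- `w ∈ 1 + rad R`. -/
theorem one_add_rad (H : IsModelO q M' hc A z x₀ y₀) (hR : IsModelPt (A0 A) (q : K0 A) z R)
    {w : FK (K0 A) (M' * 4 * q)} (hi : (VV (A0 A) hc 0).valuation (w - 1) < 1)
    (h0 : (VV (A0 A) hc 1).valuation (w - 1) < 1)
    (hW : ∀ W : ValuationSubring (FK (K0 A) (M' * 4 * q)), Hor (K0 A) R W → W.valuation w = 1) :
    RUnit R w ∧ w - 1 ∈ rad R :=
  Model.one_add_rad H.nodal (H.classify R hR) hi h0 hW

/-- `R / 𝔭` is a finite `A0 A`-module for every horizontal prime `𝔭` of `R`. -/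
theorem finAt (H : IsModelO q M' hc A z x₀ y₀) (hq : q.Prime) (hA : A.LiesOverPrime q)
    (hR : IsModelPt (A0 A) (q : K0 A) z R) : BAD.LevelQ.FinAt (A0 A) R :=
  nodeFinD q A hq hA (M' * 4 * q) _ _ H.mChart R hR

/-- the residue of a unit of `R` has an `n`-th root. -/
theorem exists_root_residue (H : IsModelO q M' hc A z x₀ y₀) (hq : q.Prime)
    (hA : A.LiesOverPrime q) (hR : IsModelPt (A0 A) (q : K0 A) z R) {n : ℕ} (hn : n ≠ 0)
    {r : FK (K0 A) (M' * 4 * q)} (hr : RUnit R r) :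
    ∃ c : K0 A, (A0 A).valuation c = 1 ∧
      algebraMap (K0 A) (FK (K0 A) (M' * 4 * q)) c ^ n * r - 1 ∈ rad R :=
  haveI := isAlgClosed_residueField_A0 A q hq hA
  Model.exists_root_residue (H.isPt hR) hn hr

end IsModelO

end Fermat.Agent.S43.E0.Model

end
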